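/-
Cluster A (F3: Galois representations of weight-2 eigenforms) -- INTERFACE PROPOSITIONS.
Architect: helper35.  This file contains ONLY definitions (no theorems, no sorry).
Every work package of cluster A proves one of these `Prop`s or consumes them as hypotheses.
See NOTES/blueprint-F3.md for the dependency chain and the owner table.
DO NOT EDIT the statements below once work has started; ask helper35 on the board.
-/
import Fermat.Prelude.Def_ModularCurve_HeckeModule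
import Fermat.Prelude.Def_GaloisRep_Residual

set_option autoImplicit false

noncomputable section

namespace Fermat.Agent.F3

open ModularCurve AlgebraicCurve
open scoped TensorProduct

/-- The absolute Galois group of `ℚ`. -/
abbrev GQ : Type := AlgebraicClosure ℚ ≃ₐ[ℚ] AlgebraicClosure ℚ

/-! ### (IF-0) Frobenius density, existence form ("F2-lite") -/

/-- F2-lite: for a finite normal `L/ℚ` inside `ℚ̄`, every `s ∈ G_ℚ` and every finite set `S` of
primes there are a prime `ℓ ∉ S`, a place `A` of `ℚ̄` over `ℓ`, a Frobenius element `τ` at `A`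
and exponents `k, j` with `τ = s ^ k` on `L` and `s ^ (k * j) = s` on `L`
(i.e. `k` is invertible modulo the order of `s` on `L`). -/
def FrobDensityLite : Prop :=
  ∀ (L : IntermediateField ℚ (AlgebraicClosure ℚ)), FiniteDimensional ℚ L → Normal ℚ L →
    ∀ (s : GQ) (S : Finset ℕ),
      ∃ (ℓ : ℕ) (A : ValuationSubring (AlgebraicClosure ℚ)) (τ : GQ) (k j : ℕ),
        ℓ.Prime ∧ ℓ ∉ S ∧ A.LiesOverPrime ℓ ∧ A.IsFrobeniusAt τ ℓ ∧
        (∀ x ∈ L, τ x = (s ^ k) x) ∧ (∀ x ∈ L, (s ^ (k * j)) x = s x)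

/-! ### (IF-1) torsion of `J₀(N)(ℚ̄)`: Galois side (cluster B = good reduction) -/

/-- Inertia at `ℓ ∤ N n` acts trivially on the `n`-torsion of `J₀(N)(ℚ̄)`. -/
def TorsionUnramified (N : ℕ) [NeZero N] : Prop :=
  ∀ (n ℓ : ℕ), ℓ.Prime → ¬ ℓ ∣ N * n →
    ∀ A : ValuationSubring (AlgebraicClosure ℚ), A.LiesOverPrime ℓ →
      ∀ σ ∈ A.inertiaSubgroupIn ℚ, ∀ x : JZero N, n • x = 0 → σ • x = x

/-- Eichler--Shimura relation `σ² - T_ℓ σ + ℓ = 0` on the `n`-torsion of `J₀(N)(ℚ̄)` for every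
Frobenius element `σ` at a place over `ℓ ∤ N n`.  `T_ℓ` is the Prelude's `heckeOperatorBar`. -/
def TorsionFrobQuadratic (N : ℕ) [NeZero N] : Prop :=
  ∀ (n ℓ : ℕ) (hℓ : ℓ.Prime), ¬ ℓ ∣ N * n →
    ∀ A : ValuationSubring (AlgebraicClosure ℚ), A.LiesOverPrime ℓ →
      ∀ σ : GQ, A.IsFrobeniusAt σ ℓ → ∀ x : JZero N, n • x = 0 →
        σ • σ • x - heckeOperatorBar N ⟨ℓ, hℓ⟩ (σ • x) + ℓ • x = 0

/-- Every torsion point of `J₀(N)(ℚ̄)` is fixed by an open subgroup of `G_ℚ`. -/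
def TorsionOpenStab (N : ℕ) [NeZero N] : Prop :=
  ∀ n : ℕ, 0 < n → ∀ x : JZero N, n • x = 0 →
    ∃ L : IntermediateField ℚ (AlgebraicClosure ℚ), FiniteDimensional ℚ L ∧
      ∀ σ : GQ, (∀ y ∈ L, σ y = y) → σ • x = x

/-- The Hecke operators on `J₀(N)(ℚ̄)` commute with the Galois action. -/
def HeckeGaloisComm (N : ℕ) [NeZero N] : Prop :=
  ∀ (ℓ : Nat.Primes) (σ : GQ) (x : JZero N),
    heckeOperatorBar N ℓ (σ • x) = σ • heckeOperatorBar N ℓ x

/-- The `n`-torsion of `J₀(N)(ℚ̄)` is finite (`n > 0`). -/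
def TorsionFinite (N : ℕ) [NeZero N] : Prop :=
  ∀ n : ℕ, 0 < n → {x : JZero N | n • x = 0}.Finite

/-! ### (IF-2) eigen-classes (analytic side: Eisenstein series with character, S21, descent) -/

/-- The `n`-torsion of `J₀(N)(ℚ̄)` as a `ℤ`-submodule. -/
abbrev Jtors (N n : ℕ) [NeZero N] : Submodule ℤ (JZero N) :=
  Submodule.torsionBy ℤ (JZero N) (n : ℤ)

theorem heckeOperatorBar_mem_Jtors (N n : ℕ) [NeZero N] (ℓ : Nat.Primes) :
    ∀ x ∈ Jtors N n, heckeOperatorBar N ℓ x ∈ Jtors N n := by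
  intro x hx
  rw [Submodule.mem_torsionBy_iff] at hx ⊢
  rw [← map_smul, hx, map_zero]

/-- `T_ℓ` restricted to the `n`-torsion. -/
def heckeTors (N n : ℕ) [NeZero N] (ℓ : Nat.Primes) : Jtors N n →ₗ[ℤ] Jtors N n :=
  (heckeOperatorBar N ℓ).restrict (heckeOperatorBar_mem_Jtors N n ℓ)

/-- The Galois action on `J₀(N)(ℚ̄)` as a `ℤ`-linear map. -/
def galLin (N : ℕ) [NeZero N] (σ : GQ) : JZero N →ₗ[ℤ] JZero N :=
  (DistribSMul.toAddMonoidHom (JZero N) σ).toIntLinearMap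

theorem galLin_mem_Jtors (N n : ℕ) [NeZero N] (σ : GQ) :
    ∀ x ∈ Jtors N n, galLin N σ x ∈ Jtors N n := by
  intro x hx
  rw [Submodule.mem_torsionBy_iff] at hx ⊢
  rw [← map_smul, hx, map_zero]

/-- The Galois action restricted to the `n`-torsion. -/
def galTors (N n : ℕ) [NeZero N] (σ : GQ) : Jtors N n →ₗ[ℤ] Jtors N n :=
  (galLin N σ).restrict (galLin_mem_Jtors N n σ)

/-- (IF-2) Mod `p` eigen-class: for a normalised eigenform `g` of level `N`, a prime `p` and a ring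
homomorphism `φ : ℤ̄ → K` to a field of characteristic `p`, there is a NONZERO class in
`K ⊗ J₀(N)(ℚ̄)[p]` on which `T_ℓ` acts as `φ (a_ℓ(g))` for every prime `ℓ ∤ N p`. -/
def EigenclassModP (N : ℕ) [NeZero N] : Prop :=
  ∀ (g : CuspForm (CongruenceSubgroup.Gamma0 N) 2), g.IsNormalizedEigenform →
    ∀ (p : ℕ), p.Prime → ∀ (K : Type) [Field K] [CharP K p] (φ : integralClosure ℤ ℂ →+* K),
      ∃ x : K ⊗[ℤ] Jtors N p, x ≠ 0 ∧
        ∀ ℓ : Nat.Primes, ¬ (ℓ : ℕ) ∣ N * p →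
          ∃ a : integralClosure ℤ ℂ, (a : ℂ) = ModularFormClass.qCoeff g ℓ ∧
            (heckeTors N p ℓ).baseChange K x = φ a • x

/-! ### (IF-3) the conclusion of S29 at a fixed level, as a `Prop` -/

/-- The frozen S29 statement at level `N`. -/
def S29At (N : ℕ) : Prop :=
  ∀ (g : CuspForm (CongruenceSubgroup.Gamma0 N) 2), g.IsNormalizedEigenform →
    ∀ (p : ℕ), p.Prime → ∀ (k : Type) [Field k] [CharP k p] (φ : integralClosure ℤ ℂ →+* k),
      ∃ ρ : ResidualGaloisRep k, ρ.IsAttachedTo g φ ∧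
        ∀ ℓ : ℕ, ℓ.Prime → ¬ ℓ ∣ N * p → ρ.IsUnramifiedAt ℓ

end Fermat.Agent.F3
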