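/-
Cluster A (F3), work package A6 (helper25): torsion points of `J₀(N)(ℚ̄)` have open stabiliser.

`x = [D]`, `n D = div f`, and `f` (an element of the base-changed function field) is fixed by all
`σ` fixing a suitable number field `L`; then `n (σ D - D) = 0` as divisors, so `σ D = D`.
-/
import Mathlib
import Fermat.Agent.F3.Interfaces

set_option autoImplicit false

noncomputable section

namespace Fermat.Agent.F3

open ModularCurve AlgebraicCurve IntermediateField

local notation "Qb" => AlgebraicClosure ℚ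

/-- A Laurent series over `ℚ̄` is *defined over a number field* if it is fixed by all
automorphisms fixing some finite extension of `ℚ`. -/
def IsDefinedOverNF (y : LaurentSeries Qb) : Prop :=
  ∃ L : IntermediateField ℚ Qb, FiniteDimensional ℚ L ∧
    ∀ σ : GQ, (∀ a ∈ L, σ a = a) → coeffMap (σ : Qb →+* Qb) y = y

lemma isDefinedOverNF_algebraMap (c : Qb) :
    IsDefinedOverNF (algebraMap Qb (LaurentSeries Qb) c) := by
  refine ⟨ℚ⟮c⟯, ?_, fun σ hσ => ?_⟩
  · exact IntermediateField.adjoin.finiteDimensional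
      ((AlgebraicClosure.isAlgebraic ℚ).isAlgebraic c).isIntegral
  · rw [coeffMap_algebraMap]
    congr 1
    exact hσ c (IntermediateField.mem_adjoin_simple_self ℚ c)

lemma isDefinedOverNF_coeffEmb (z : LaurentSeries ℚ) : IsDefinedOverNF (coeffEmb Qb z) :=
  ⟨⊥, inferInstance, fun σ _ => coeffMap_coeffEmb σ z⟩

lemma IsDefinedOverNF.binary {x y z : LaurentSeries Qb}
    (hx : IsDefinedOverNF x) (hy : IsDefinedOverNF y)
    (h : ∀ φ : LaurentSeries Qb →+* LaurentSeries Qb, φ x = x → φ y = y → φ z = z) :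
    IsDefinedOverNF z := by
  obtain ⟨L₁, hL₁, h₁⟩ := hx
  obtain ⟨L₂, hL₂, h₂⟩ := hy
  refine ⟨L₁ ⊔ L₂, IntermediateField.finiteDimensional_sup L₁ L₂, fun σ hσ => ?_⟩
  exact h _ (h₁ σ fun a ha => hσ a ((le_sup_left : L₁ ≤ L₁ ⊔ L₂) ha))
    (h₂ σ fun a ha => hσ a ((le_sup_right : L₂ ≤ L₁ ⊔ L₂) ha))

lemma IsDefinedOverNF.unary {x z : LaurentSeries Qb} (hx : IsDefinedOverNF x)
    (h : ∀ φ : LaurentSeries Qb →+* LaurentSeries Qb, φ x = x → φ z = z) :
    IsDefinedOverNF z :=
  hx.binary hx fun φ h1 _ => h φ h1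

/-- Every element of the base-changed function field is defined over a number field. -/
theorem isDefinedOverNF_of_mem (F₀ : IntermediateField ℚ (LaurentSeries ℚ))
    {y : LaurentSeries Qb} (hy : y ∈ laurentBaseChange Qb F₀) : IsDefinedOverNF y := by
  rw [mem_laurentBaseChange_iff] at hy
  induction hy using Subfield.closure_induction with
  | mem y hy =>
      rcases hy with ⟨a, rfl⟩ | ⟨z, _, rfl⟩
      · exact isDefinedOverNF_algebraMap a
      · exact isDefinedOverNF_coeffEmb z
  | one => exact ⟨⊥, inferInstance, fun σ _ => map_one _⟩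
  | add x y _ _ hx hy => exact hx.binary hy fun φ h1 h2 => by rw [map_add, h1, h2]
  | neg x _ hx => exact hx.unary fun φ h1 => by rw [map_neg, h1]
  | inv x _ hx =>
      obtain ⟨L, hL, h⟩ := hx
      exact ⟨L, hL, fun σ hσ => by
        have := h σ hσ
        calc coeffMap (σ : Qb →+* Qb) x⁻¹ = (coeffMap (σ : Qb →+* Qb) x)⁻¹ := map_inv₀ _ x
          _ = x⁻¹ := by rw [this]⟩
  | mul x y _ _ hx hy => exact hx.binary hy fun φ h1 h2 => by rw [map_mul, h1, h2]

/-- A semilinear automorphism fixing a function `f` fixes every divisor `D` with `n D = div f`. -/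
theorem smul_divisor_eq_of_smul_eq {K F : Type*} [Field K] [Field F] [Algebra K F]
    (g : SemilinearAut K F) {f : F} (hgf : g • f = f) {n : ℕ} (hn : 0 < n) {D : Divisor K F}
    (hD : ∀ v : Place K F, (n • D) v = v.ord f) : g • D = D := by
  have h1 : g • (n • D) = n • D := by
    ext w
    rw [SemilinearAut.divisor_smul_apply, hD, hD]
    have h := SemilinearAut.ord_smul g (g⁻¹ • w) f
    rw [smul_inv_smul, hgf] at h
    exact h.symm
  have h2 : n • (g • D) = n • D := by rw [← h1, smul_comm]
  ext w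
  have h3 := DFunLike.congr_fun h2 w
  simp only [Finsupp.smul_apply, nsmul_eq_mul] at h3
  have hn' : (n : ℤ) ≠ 0 := by exact_mod_cast hn.ne'
  exact mul_left_cancel₀ hn' h3

/-- General form of A6 for any base-changed Laurent function field. -/
theorem torsion_open_stab (F₀ : IntermediateField ℚ (LaurentSeries ℚ)) {n : ℕ} (hn : 0 < n)
    (x : Pic0 Qb (laurentBaseChange Qb F₀)) (hx : n • x = 0) :
    ∃ L : IntermediateField ℚ Qb, FiniteDimensional ℚ L ∧
      ∀ σ : GQ, (∀ y ∈ L, σ y = y) → σ • x = x := by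
  obtain ⟨D, rfl⟩ := Pic0.mk_surjective x
  have hprin : ((n • D : Divisor.degZero (K := Qb) (F := laurentBaseChange Qb F₀)) :
      Divisor Qb (laurentBaseChange Qb F₀)) ∈
        Divisor.principal (K := Qb) (F := laurentBaseChange Qb F₀) := by
    have h0 : Pic0.mk (n • D) = 0 := by
      rw [← hx]
      rfl
    have := (QuotientAddGroup.eq_zero_iff _).mp h0
    simpa [AddSubgroup.mem_addSubgroupOf] using this
  obtain ⟨f, -, hf⟩ := hprin
  obtain ⟨L, hL, hLf⟩ := isDefinedOverNF_of_mem F₀ f.2
  refine ⟨L, hL, fun σ hσ => ?_⟩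
  have hgf : arithmeticGalois F₀ σ • f = f :=
    Subtype.ext ((coe_arithmeticGalois_smul F₀ σ f).trans (hLf σ hσ))
  rw [galois_smul_pic0_def, SemilinearAut.pic0_smul_mk]
  congr 1
  apply Subtype.ext
  rw [SemilinearAut.coe_degZeroSMulHom]
  refine smul_divisor_eq_of_smul_eq _ hgf hn (D := (D : Divisor Qb (laurentBaseChange Qb F₀)))
    fun v => ?_
  have := hf v
  simpa using this

/-- **A6.** Every torsion point of `J₀(N)(ℚ̄)` is fixed by an open subgroup of `G_ℚ`. -/
theorem torsionOpenStab (N : ℕ) [NeZero N] : TorsionOpenStab N :=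
  fun _ hn x hx => torsion_open_stab (modularFunctionFieldFull N) hn x hx

end Fermat.Agent.F3
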