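/-
Cluster A (F3), work package A0 (helper93): the interface proposition `F3.FrobDensityLite`
follows from the Frobenius density theorem in the form proved by the F2' team
(`Fermat.Agent.FrobDensity.frobenius_density`, helper81).  The statement of that theorem is taken
here as a hypothesis (`FrobDensityStatement`), so this file depends on `F3/Interfaces` only.
-/
import Mathlib
import Fermat.Agent.F3.Interfaces

set_option autoImplicit false

noncomputable section

namespace Fermat.Agent.F3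

/-- The statement of the Frobenius density theorem (weak Chebotarev), finite-level form. -/
def FrobDensityStatement : Prop :=
  ∀ (L : IntermediateField ℚ (AlgebraicClosure ℚ)) [FiniteDimensional ℚ L] [IsGalois ℚ L]
    (g : L ≃ₐ[ℚ] L) (S : Finset ℕ),
    ∃ (ℓ : ℕ) (A : ValuationSubring (AlgebraicClosure ℚ)) (τ : GQ) (k : ℕ),
      ℓ.Prime ∧ ℓ ∉ S ∧ A.LiesOverPrime ℓ ∧ A.IsFrobeniusAt τ ℓ ∧ k.Coprime (orderOf g) ∧
      AlgEquiv.restrictNormalHom L τ = g ^ k

theorem frobDensityLite_of (h : FrobDensityStatement) : FrobDensityLite := by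
  intro L hfd hn s S
  have : FiniteDimensional ℚ L := hfd
  have : Normal ℚ L := hn
  have : IsGalois ℚ L := ⟨⟩
  obtain ⟨ℓ, A, τ, k, hℓ, hS, hA, hF, hk, hτ⟩ := h L (AlgEquiv.restrictNormalHom L s) S
  obtain ⟨j, hj⟩ := exists_pow_eq_self_of_coprime hk
  rw [← pow_mul] at hj
  refine ⟨ℓ, A, τ, k, j, hℓ, hS, hA, hF, ?_, ?_⟩
  · intro x hx
    have h1 : AlgEquiv.restrictNormalHom L τ = AlgEquiv.restrictNormalHom L (s ^ k) := by
      rw [hτ, map_pow]
    have h2 := AlgEquiv.restrictNormal_commutes τ L ⟨x, hx⟩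
    have h3 := AlgEquiv.restrictNormal_commutes (s ^ k) L ⟨x, hx⟩
    have h4 : (AlgEquiv.restrictNormalHom L τ) ⟨x, hx⟩
        = (AlgEquiv.restrictNormalHom L (s ^ k)) ⟨x, hx⟩ := by rw [h1]
    have h5 : τ.restrictNormal L ⟨x, hx⟩ = (s ^ k).restrictNormal L ⟨x, hx⟩ := h4
    rw [h5] at h2
    exact h2.symm.trans h3
  · intro x hx
    have h1 : AlgEquiv.restrictNormalHom L (s ^ (k * j)) = AlgEquiv.restrictNormalHom L s := by
      rw [map_pow, hj]
    have h2 := AlgEquiv.restrictNormal_commutes (s ^ (k * j)) L ⟨x, hx⟩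
    have h3 := AlgEquiv.restrictNormal_commutes s L ⟨x, hx⟩
    have h4 : (AlgEquiv.restrictNormalHom L (s ^ (k * j))) ⟨x, hx⟩
        = (AlgEquiv.restrictNormalHom L s) ⟨x, hx⟩ := by rw [h1]
    have h5 : (s ^ (k * j)).restrictNormal L ⟨x, hx⟩ = s.restrictNormal L ⟨x, hx⟩ := h4
    rw [h5] at h2
    exact h2.symm.trans h3

end Fermat.Agent.F3
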