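/-
Cluster A (F3), work package A0 (helper93): the interface proposition `F3.FrobDensityLite`,
unconditionally, from the Frobenius density theorem of the F2' team
(`Fermat.Agent.FrobDensity.frobenius_density`, Lib/FrobDensity/Final.lean).
-/
import Fermat.Agent.F3.FrobDensityLite
import Fermat.Agent.Lib.FrobDensity.Final

set_option autoImplicit false

namespace Fermat.Agent.F3

theorem frobDensityStatement : FrobDensityStatement := by
  intro L _ _ g S
  exact Fermat.Agent.FrobDensity.frobenius_density L g S

/-- (IF-0) F2-lite holds. -/
theorem frobDensityLite : FrobDensityLite :=
  frobDensityLite_of frobDensityStatement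

end Fermat.Agent.F3
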