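import Fermat.Agent.S29.AsmStatus
import Fermat.Agent.S42.Reduction
import Fermat.Agent.S31.Assembly
import Fermat.Agent.F3.EigenPadic.Closed
import Fermat.Agent.F3.TorsFin.Final

/-!
# Cluster A (F3): final wiring of S29, S42, S30, S31  (owner: helper11)

The four frozen statements S29, S42, S30, S31, in their EXACT frozen shapes, from the two
inputs that are still open:

* `hKey : ∀ N [NeZero N], GaussInt.KeyLemmaAt N`   (cluster B),
* `hKap : ∀ N [NeZero N], KappaAllW N`             (cluster A, analytic side `(K1)`).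

Everything else (Frobenius density, cyclotomic character, open stabilisers, Hecke/Galois
commutation, Hecke inputs, finiteness of torsion, period eigenclasses, trace rigidity and DVR
points) is discharged by theorems of the team that are on `main`.

With `keyLemmaAt` and `kappaAll` proved, the files `S29.lean`, `S42.lean`, `S30.lean`,
`S31.lean` are the one-liners

  `Fermat.Agent.F3W.s29_final keyLemmaAt kappaAll hg hp φ`
  `Fermat.Agent.F3W.s42_final keyLemmaAt kappaAll P`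
  `Fermat.Agent.F3W.s30_final keyLemmaAt kappaAll`
  `Fermat.Agent.F3W.s31_final keyLemmaAt kappaAll hp hp𝒪 hpS hNS H q hq hqS`.
-/

set_option autoImplicit false
set_option linter.style.haveILetI false
set_option linter.overlappingInstances false

open Polynomial

namespace Fermat.Agent.F3W

open Fermat.Agent.F3 ModularCurve Fermat.Agent.F3EC

/-- `(K1)` in the architect's final shape: `κ_n : Hom_par(Γ₀(N), ℤ) → J₀(N)(ℚ̄)[n]` for ALL `n`,
with kernel in `n · Hom_par`, `d • κ_{dn} = κ_n`, and Hecke-equivariant for all `ℓ ∤ N`. -/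
def KappaAllW (N : ℕ) [NeZero N] : Prop :=
  ∃ κ : (n : ℕ) → HomPar N →ₗ[ℤ] Jtors N n,
    (∀ n : ℕ, 0 < n → ∀ c : HomPar N, κ n c = 0 → ∃ c' : HomPar N, c = (n : ℤ) • c') ∧
    (∀ (n d : ℕ) (c : HomPar N), 0 < n → 0 < d →
      (d : ℤ) • ((κ (d * n) c : Jtors N (d * n)) : JZero N) = (κ n c : JZero N)) ∧
    (∀ (n : ℕ) (ℓ : Nat.Primes), ¬ (ℓ : ℕ) ∣ N → ∀ c : HomPar N,
      κ n (heckeHom N ℓ c) = heckeTors N n ℓ (κ n c))

/-- `(K1)` gives the mod `p` family used by S29 and S42. -/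
theorem kappaModP_of_kappaAllW {N : ℕ} [NeZero N] (h : KappaAllW N) : KappaModP N := by
  obtain ⟨κ, hker, -, hT⟩ := h
  intro p hp
  refine ⟨κ p, fun c hc => ?_, fun ℓ hℓ c => hT p ℓ (fun hd => hℓ (Dvd.dvd.mul_right hd p)) c⟩
  obtain ⟨c', hc'⟩ := hker p hp.pos c hc
  exact ⟨c', by rw [hc', natCast_zsmul]⟩

/-- `(K1)` gives the `p`-adic eigenclasses used by S30 and S31. -/
theorem eigenclassPadic_of_kappaAllW {N : ℕ} [NeZero N] (h : KappaAllW N) :
    Fermat.Agent.S30.EigenclassPadic N := by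
  obtain ⟨κ, hker, hcompat, hT⟩ := h
  exact Fermat.Agent.F3EP.eigenclassPadic_of_kappa N κ hker hcompat hT

/-- The Hecke inputs along `ℚ̄` at every level and every prime (helper76). -/
theorem heckeInputs_all (N : ℕ) [NeZero N] (ℓ : Nat.Primes) :
    (haveI : NeZero (ℓ : ℕ) := ⟨ℓ.2.ne_zero⟩; HeckeInputsAlong (AlgebraicClosure ℚ) N ℓ) :=
  haveI : NeZero (ℓ : ℕ) := ⟨ℓ.2.ne_zero⟩
  Fermat.Agent.HeckeInputs.hi_heckeInputsAlong_Qbar N ℓ

/-- `S30At N` from the two open inputs. -/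
theorem s30At_of_two (N : ℕ) [NeZero N]
    (hKey : Fermat.Agent.GaussInt.KeyLemmaAt N) (hKap : KappaAllW N) :
    Fermat.Agent.S30.S30At N :=
  Fermat.Agent.S30.s30At_of_interfaces N (eigenclassPadic_of_kappaAllW hKap)
    (Fermat.Agent.F3TF.torsionFinite N)
    (Fermat.Agent.GaussInt.torsionUnramified_of_keyLemmaAt hKey)
    (Fermat.Agent.GaussIntFP.torsionFrobQuadratic_of_keyLemmaAt hKey (heckeInputs_all N))
    (torsionOpenStab N) (Fermat.Agent.F3G.heckeGaloisComm N)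

section Finals

/-- **S29**, exact frozen shape, from the two open inputs. -/
theorem s29_final
    (hKey : ∀ (N : ℕ) [NeZero N], Fermat.Agent.GaussInt.KeyLemmaAt N)
    (hKap : ∀ (N : ℕ) [NeZero N], KappaAllW N)
    {N : ℕ} {g : CuspForm (CongruenceSubgroup.Gamma0 N) 2} (hg : g.IsNormalizedEigenform)
    {p : ℕ} (hp : p.Prime) {k : Type} [Field k] [CharP k p]
    (φ : integralClosure ℤ ℂ →+* k) :
    ∃ ρ : ResidualGaloisRep k, ρ.IsAttachedTo g φ ∧
      ∀ ℓ : ℕ, ℓ.Prime → ¬ ℓ ∣ N * p → ρ.IsUnramifiedAt ℓ :=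
  Fermat.Agent.S29Asm.s29At_of_two hKey (fun N _ => kappaModP_of_kappaAllW (hKap N)) N
    g hg p hp k φ

/-- **S42**, exact frozen shape, from the two open inputs. -/
theorem s42_final
    (hKey : ∀ (N : ℕ) [NeZero N], Fermat.Agent.GaussInt.KeyLemmaAt N)
    (hKap : ∀ (N : ℕ) [NeZero N], KappaAllW N) (P : FreyPackage) :
    ∀ M : ℕ, 0 < M → P.EigenformResidualAttachmentAt M :=
  Fermat.Agent.S42Red.s42_of_s29 (@s29_final hKey hKap) P

/-- **S30**, exact frozen shape, from the two open inputs. -/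
theorem s30_final
    (hKey : ∀ (N : ℕ) [NeZero N], Fermat.Agent.GaussInt.KeyLemmaAt N)
    (hKap : ∀ (N : ℕ) [NeZero N], KappaAllW N) :
    ∀ (p : ℕ) [Fact p.Prime] (N : ℕ) [NeZero N] (S : Finset ℕ)
      (_hpS : p ∈ S) (_hNS : ∀ q : ℕ, q.Prime → q ∣ N → q ∈ S)
      (𝒪' : Type) [CommRing 𝒪'] [IsDomain 𝒪'] [IsDiscreteValuationRing 𝒪']
      [IsAdicComplete (IsLocalRing.maximalIdeal 𝒪') 𝒪'] [Finite (IsLocalRing.ResidueField 𝒪')]
      [CharZero 𝒪'] (_hp𝒪' : (p : 𝒪') ∈ IsLocalRing.maximalIdeal 𝒪')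
      (χ : CuspForm.heckeAlgebra N 2 (↑S : Set ℕ) →+* 𝒪'),
      ∃ (𝒪'' : Type) (_ : CommRing 𝒪'') (_ : IsDomain 𝒪'') (_ : IsDiscreteValuationRing 𝒪'')
        (_ : IsAdicComplete (IsLocalRing.maximalIdeal 𝒪'') 𝒪'')
        (_ : Finite (IsLocalRing.ResidueField 𝒪'')) (_ : CharZero 𝒪'')
        (_ : Algebra 𝒪' 𝒪'') (_ : Module.Finite 𝒪' 𝒪'') (_ : IsLocalHom (algebraMap 𝒪' 𝒪'')),
      Function.Injective (algebraMap 𝒪' 𝒪'') ∧
      ∃ ρ : GaloisRepAdic 𝒪'',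
        (∀ (ℓ : ℕ) (hℓ : ℓ.Prime) (hℓN : ¬ ℓ ∣ N) (hℓS : ℓ ∉ (↑S : Set ℕ)),
          ∀ A : ValuationSubring (AlgebraicClosure ℚ), A.LiesOverPrime ℓ →
            ∀ σ : AlgebraicClosure ℚ ≃ₐ[ℚ] AlgebraicClosure ℚ, A.IsFrobeniusAt σ ℓ →
              LinearMap.charpoly (ρ.ρ σ) =
                X ^ 2 - C (algebraMap 𝒪' 𝒪'' (χ (CuspForm.heckeAlgebra.T hℓ hℓN hℓS))) * X
                  + C ((ℓ : 𝒪''))) ∧
        (∀ q : ℕ, q.Prime → ¬ q ∣ N → q ≠ p → ρ.IsUnramifiedAt q) :=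
  Fermat.Agent.S31.s30Statement_of_S30At (fun N _ => s30At_of_two N (hKey N) (hKap N))

end Finals

section S31

variable {p : ℕ} {N : ℕ} [NeZero N] {S : Finset ℕ}
  {𝒪 : Type} [CommRing 𝒪] [IsDomain 𝒪] [IsDiscreteValuationRing 𝒪]
  [IsAdicComplete (IsLocalRing.maximalIdeal 𝒪) 𝒪]
  {θ : CuspForm.heckeAlgebra N 2 (↑S : Set ℕ) →+* IsLocalRing.ResidueField 𝒪}
  {T : Type} [CommRing T] [IsLocalRing T] [IsNoetherianRing T]
  [IsAdicComplete (IsLocalRing.maximalIdeal T) T] [Algebra 𝒪 T] [IsLocalHom (algebraMap 𝒪 T)]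
  [Module.Finite 𝒪 T] [Module.Free 𝒪 T]

/-- **S31**, exact frozen shape, from the two open inputs. -/
theorem s31_final
    (hKey : ∀ (N : ℕ) [NeZero N], Fermat.Agent.GaussInt.KeyLemmaAt N)
    (hKap : ∀ (N : ℕ) [NeZero N], KappaAllW N)
    (hp : p.Prime)
    (hp𝒪 : (p : 𝒪) ∈ IsLocalRing.maximalIdeal 𝒪) (hpS : p ∈ S)
    (hNS : ∀ q : ℕ, q.Prime → q ∣ N → q ∈ S)
    (H : CuspForm.HeckeGaloisRepDatum N (↑S : Set ℕ) 𝒪 θ T)
    (q : ℕ) (hq : q.Prime) (hqS : q ∉ S) :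
    H.ρ.IsUnramifiedAt q :=
  Fermat.Agent.S31.s31Statement_of_S30At (fun N _ => s30At_of_two N (hKey N) (hKap N))
    hp hp𝒪 hpS hNS H q hq hqS

end S31

end Fermat.Agent.F3W
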