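import Mathlib

set_option autoImplicit false

/-!
# Cluster A (F3), WP A5, algebraic core: reduction of eigenvectors

* `exists_common_kernel_of_rows`: if a family of vectors with entries in a commutative ring `R`
  has a common nonzero orthogonal vector over an extension domain `C` of `R`, then it has one over
  every field `K` receiving `R`.
* `exists_eigenvector_reduction`: a simultaneous eigenvector in `ℂ ⊗ M` of a family of
  endomorphisms of a finite free `ℤ`-module `M`, with eigenvalues in `ℤ̄`, gives a simultaneous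
  eigenvector in `K ⊗ M` with the reduced eigenvalues.
-/

noncomputable section

open TensorProduct Matrix

namespace Fermat.Agent.F3Eig

section Rows

variable {R C K : Type*} [CommRing R] [CommRing C] [IsDomain C] [Field K]
  {n : Type*} [Fintype n] [DecidableEq n]

/-- if the vectors `w α` span `K ^ n`, then `n` of them form an invertible matrix. -/
theorem exists_submatrix_det_ne_zero {A : Type*} (w : A → n → K)
    (hspan : Submodule.span K (Set.range w) = ⊤) :
    ∃ f : n → A, (Matrix.of fun k => w (f k)).det ≠ 0 := by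
  classical
  obtain ⟨b, hbsub, hbspan, hbli⟩ := exists_linearIndependent K (Set.range w)
  rw [hspan] at hbspan
  let B : Module.Basis b K (n → K) := Module.Basis.mk hbli (by rw [Subtype.range_coe]; exact hbspan.ge)
  let e : n ≃ b := (Pi.basisFun K n).indexEquiv B
  have hrow : ∀ k : n, ∃ α : A, w α = ((e k : b) : n → K) := fun k => hbsub (e k).2
  choose f hf using hrow
  refine ⟨f, ?_⟩
  have hli : LinearIndependent K (fun k : n => ((e k : b) : n → K)) :=
    hbli.comp e e.injective
  have hmat : (Matrix.of fun k => w (f k)) = Matrix.of (fun k : n => ((e k : b) : n → K)) := by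
    ext k l
    simp [hf k]
  rw [hmat]
  have hunit : IsUnit (Matrix.of (fun k : n => ((e k : b) : n → K))) :=
    Matrix.linearIndependent_rows_iff_isUnit.mp hli
  exact ((Matrix.isUnit_iff_isUnit_det _).mp hunit).ne_zero

/-- **specialisation of a common kernel**: if the rows `ρ α` have a common nonzero orthogonal
vector over the domain `C ⊇ R`, they have one over every field `K` receiving `R`. -/
theorem exists_common_kernel_of_rows {A : Type*} (ρ : A → n → R)
    (j : R →+* C) (hj : Function.Injective j) (φ : R →+* K)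
    (hv : ∃ v : n → C, v ≠ 0 ∧ ∀ α, ∑ k, j (ρ α k) * v k = 0) :
    ∃ x : n → K, x ≠ 0 ∧ ∀ α, ∑ k, φ (ρ α k) * x k = 0 := by
  classical
  by_contra hcon
  push Not at hcon
  -- the reduced rows span `K ^ n`
  have hspan : Submodule.span K (Set.range fun α => (fun k => φ (ρ α k) : n → K)) = ⊤ := by
    by_contra hne
    obtain ⟨f, hf0, hle⟩ := Submodule.exists_le_ker_of_lt_top _ (lt_top_iff_ne_top.mpr hne)
    have hfx : ∀ y : n → K, f y = ∑ k, y k * f (Pi.single k 1) := by
      intro y
      conv_lhs => rw [← Finset.univ_sum_single y]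
      rw [map_sum]
      refine Finset.sum_congr rfl fun k _ => ?_
      have : (Pi.single k (y k) : n → K) = y k • Pi.single k 1 := by
        rw [← Pi.single_smul, smul_eq_mul, mul_one]
      rw [this, map_smul, smul_eq_mul]
    have hx0 : (fun k => f (Pi.single k 1)) ≠ 0 := by
      intro h0
      apply hf0
      refine LinearMap.ext fun y => ?_
      rw [hfx y]
      have h0' : ∀ k, f (Pi.single k 1) = 0 := fun k => congrFun h0 k
      simp [h0']
    obtain ⟨α, hα⟩ := hcon _ hx0
    apply hα
    have hmem : (fun k => φ (ρ α k) : n → K) ∈ LinearMap.ker f :=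
      hle (Submodule.subset_span ⟨α, rfl⟩)
    rw [LinearMap.mem_ker, hfx] at hmem
    exact hmem
  obtain ⟨f, hdet⟩ := exists_submatrix_det_ne_zero _ hspan
  obtain ⟨v, hv0, hv⟩ := hv
  let P : Matrix n n R := Matrix.of fun k => ρ (f k)
  have hPφ : P.map φ = Matrix.of (fun k => (fun l => φ (ρ (f k) l) : n → K)) := by
    ext k l; rfl
  have hdetP : P.det ≠ 0 := by
    intro h
    apply hdet
    rw [← hPφ, ← RingHom.mapMatrix_apply, ← RingHom.map_det, h, map_zero]
  have hdetj : (P.map j).det ≠ 0 := by
    rw [← RingHom.mapMatrix_apply, ← RingHom.map_det]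
    intro h
    exact hdetP (hj (by rw [h, map_zero]))
  have hker : (P.map j).mulVec v = 0 := by
    ext k
    simp only [Matrix.mulVec, dotProduct, Matrix.map_apply, Pi.zero_apply]
    exact hv (f k)
  exact hdetj (Matrix.exists_mulVec_eq_zero_iff.mp ⟨v, hv0, hker⟩)

end Rows

section Tensor

variable {M : Type*} [AddCommGroup M] [Module.Free ℤ M] [Module.Finite ℤ M]

/-- the eigenvector equation in `S ⊗ M`, in the coordinates of the chosen basis of `M`. -/
theorem baseChange_eq_smul_iff (S : Type*) [CommRing S] (T : M →ₗ[ℤ] M) (s : S)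
    (v : S ⊗[ℤ] M) :
    T.baseChange S v = s • v ↔
      ∀ k, ∑ l,
        ((((LinearMap.toMatrix (Module.Free.chooseBasis ℤ M) (Module.Free.chooseBasis ℤ M) T
            k l : ℤ) : S)) - s * (if k = l then 1 else 0)) *
          (Algebra.TensorProduct.basis S (Module.Free.chooseBasis ℤ M)).repr v l = 0 := by
  classical
  set b := Module.Free.chooseBasis ℤ M with hb
  set bS := Algebra.TensorProduct.basis S b with hbS
  have hrepr : ∀ k, bS.repr (T.baseChange S v) k =
      ∑ l, ((LinearMap.toMatrix b b T k l : ℤ) : S) * bS.repr v l := by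
    intro k
    have h := LinearMap.toMatrix_mulVec_repr bS bS (T.baseChange S) v
    rw [hbS, LinearMap.toMatrix_baseChange] at h
    have hk := congrFun h k
    rw [← hbS] at hk
    rw [← hk]
    simp [Matrix.mulVec, dotProduct]
  constructor
  · intro h k
    have hk : bS.repr (T.baseChange S v) k = bS.repr (s • v) k := by rw [h]
    rw [hrepr k] at hk
    simp only [map_smul, Finsupp.smul_apply, smul_eq_mul] at hk
    simp only [sub_mul, Finset.sum_sub_distrib, hk]
    simp
  · intro h
    apply bS.repr.injective
    ext k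
    rw [hrepr k]
    have hk := h k
    simp only [sub_mul, Finset.sum_sub_distrib] at hk
    simp only [map_smul, Finsupp.smul_apply, smul_eq_mul]
    rw [sub_eq_zero] at hk
    rw [hk]
    simp

/-- **reduction of simultaneous eigenvectors**, general form. -/
theorem exists_eigenvector_reduction_of_injective
    {R C K : Type*} [CommRing R] [CommRing C] [IsDomain C] [Field K]
    {ι : Type*} (T : ι → M →ₗ[ℤ] M) (a : ι → R)
    (j : R →+* C) (hj : Function.Injective j) (φ : R →+* K)
    (hv : ∃ v : C ⊗[ℤ] M, v ≠ 0 ∧ ∀ i, (T i).baseChange C v = j (a i) • v) :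
    ∃ x : K ⊗[ℤ] M, x ≠ 0 ∧ ∀ i, (T i).baseChange K x = φ (a i) • x := by
  classical
  let ρ : ι × Module.Free.ChooseBasisIndex ℤ M → Module.Free.ChooseBasisIndex ℤ M → R :=
    fun ik l =>
      ((LinearMap.toMatrix (Module.Free.chooseBasis ℤ M) (Module.Free.chooseBasis ℤ M)
        (T ik.1) ik.2 l : ℤ) : R) - a ik.1 * (if ik.2 = l then 1 else 0)
  obtain ⟨v, hv0, hv⟩ := hv
  have hrows : ∃ w : Module.Free.ChooseBasisIndex ℤ M → C,
      w ≠ 0 ∧ ∀ α, ∑ k, j (ρ α k) * w k = 0 := by
    refine ⟨fun l => (Algebra.TensorProduct.basis C (Module.Free.chooseBasis ℤ M)).repr v l,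
      ?_, ?_⟩
    · intro h0
      apply hv0
      apply (Algebra.TensorProduct.basis C (Module.Free.chooseBasis ℤ M)).repr.injective
      ext l
      simpa using congrFun h0 l
    · rintro ⟨i, k⟩
      have h := (baseChange_eq_smul_iff C (T i) (j (a i)) v).mp (hv i) k
      refine Eq.trans (Finset.sum_congr rfl fun l _ => ?_) h
      simp only [ρ, map_sub, map_mul, map_intCast, apply_ite j, map_one, map_zero]
  obtain ⟨x, hx0, hx⟩ := exists_common_kernel_of_rows ρ j hj φ hrows
  refine ⟨(Algebra.TensorProduct.basis K (Module.Free.chooseBasis ℤ M)).repr.symm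
    (Finsupp.equivFunOnFinite.symm x), ?_, ?_⟩
  · intro h0
    apply hx0
    have := congrArg (Algebra.TensorProduct.basis K (Module.Free.chooseBasis ℤ M)).repr h0
    rw [LinearEquiv.apply_symm_apply, map_zero] at this
    ext l
    simpa using DFunLike.congr_fun this l
  · intro i
    rw [baseChange_eq_smul_iff]
    intro k
    have h := hx (i, k)
    refine Eq.trans (Finset.sum_congr rfl fun l _ => ?_) h
    simp only [ρ, map_sub, map_mul, map_intCast, apply_ite φ, map_one, map_zero,
      LinearEquiv.apply_symm_apply, Finsupp.equivFunOnFinite_symm_apply_apply]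

/-- **reduction of simultaneous eigenvectors** (cluster A, WP A5, algebraic core): a simultaneous
eigenvector in `ℂ ⊗ M` of endomorphisms of a finite free `ℤ`-module `M` with algebraic-integer
eigenvalues `a i` gives, for every ring homomorphism `φ` from the algebraic integers to a field
`K`, a simultaneous eigenvector in `K ⊗ M` with eigenvalues `φ (a i)`. -/
theorem exists_eigenvector_reduction
    {ι : Type*} (T : ι → M →ₗ[ℤ] M) (a : ι → integralClosure ℤ ℂ)
    (hv : ∃ v : ℂ ⊗[ℤ] M, v ≠ 0 ∧ ∀ i, (T i).baseChange ℂ v = (a i : ℂ) • v)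
    {K : Type*} [Field K] (φ : integralClosure ℤ ℂ →+* K) :
    ∃ x : K ⊗[ℤ] M, x ≠ 0 ∧ ∀ i, (T i).baseChange K x = φ (a i) • x :=
  exists_eigenvector_reduction_of_injective T a (algebraMap (integralClosure ℤ ℂ) ℂ)
    Subtype.val_injective φ hv

end Tensor

end Fermat.Agent.F3Eig
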