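/-
Cluster A (F3), glue (H) (helper35):  `EigenclassModP N` from
* `PeriodEigen N`  (WP A5: the period class of an eigenform is an eigenvector in `ℂ ⊗ HomPar N`),
* `KappaModP N`    (WP A3: `κ : HomPar N → J₀(N)(ℚ̄)[p]`, kernel `p · HomPar N`, Hecke-equivariant),
via the reduction lemma `F3Eig.exists_eigenvector_reduction` (helper57) and
`F3Glue.baseChange_injective_of_ker`.
-/
import Fermat.Agent.F3.Interfaces
import Fermat.Agent.F3.EigenChar.Defs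
import Fermat.Agent.F3.EigenReduction
import Fermat.Agent.F3.BaseChangeInj

set_option autoImplicit false

noncomputable section

namespace Fermat.Agent.F3

open ModularCurve AlgebraicCurve Fermat.Agent.F3EC
open scoped TensorProduct

/-- (A5) For every normalised eigenform `g` of level `N` there are algebraic integers `a ℓ`
(`= a_ℓ(g)` for `ℓ ∤ N`) and a nonzero `v ∈ ℂ ⊗ HomPar N` with `T_ℓ v = a_ℓ v` for all `ℓ ∤ N`. -/
def PeriodEigen (N : ℕ) : Prop :=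
  ∀ (g : CuspForm (CongruenceSubgroup.Gamma0 N) 2), g.IsNormalizedEigenform →
    ∃ a : Nat.Primes → integralClosure ℤ ℂ,
      (∀ ℓ : Nat.Primes, ¬ (ℓ : ℕ) ∣ N → ((a ℓ : integralClosure ℤ ℂ) : ℂ) =
        ModularFormClass.qCoeff g ℓ) ∧
      ∃ v : ℂ ⊗[ℤ] HomPar N, v ≠ 0 ∧
        ∀ ℓ : Nat.Primes, ¬ (ℓ : ℕ) ∣ N → (heckeHom N ℓ).baseChange ℂ v = ((a ℓ : ℂ)) • v

/-- (A3) For every prime `p` there is a `ℤ`-linear `κ : HomPar N → J₀(N)(ℚ̄)[p]` with kernel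
`p · HomPar N`, commuting with `T_ℓ` for all primes `ℓ ∤ N p`. -/
def KappaModP (N : ℕ) [NeZero N] : Prop :=
  ∀ p : ℕ, p.Prime → ∃ κ : HomPar N →ₗ[ℤ] Jtors N p,
    (∀ c : HomPar N, κ c = 0 → ∃ c' : HomPar N, c = p • c') ∧
    ∀ ℓ : Nat.Primes, ¬ (ℓ : ℕ) ∣ N * p → ∀ c : HomPar N,
      κ (heckeHom N ℓ c) = heckeTors N p ℓ (κ c)

/-- **Glue (H).** -/
theorem eigenclassModP_of (N : ℕ) [NeZero N]
    [Module.Free ℤ (HomPar N)] [Module.Finite ℤ (HomPar N)]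
    (hP : PeriodEigen N) (hκ : KappaModP N) : EigenclassModP N := by
  intro g hg p hp K _ _ φ
  haveI : Fact p.Prime := ⟨hp⟩
  obtain ⟨a, ha, v, hv0, hv⟩ := hP g hg
  obtain ⟨κ, hker, hκT⟩ := hκ p hp
  -- reduce the eigenvector
  obtain ⟨y, hy0, hy⟩ := Fermat.Agent.F3Eig.exists_eigenvector_reduction
    (M := HomPar N) (ι := {ℓ : Nat.Primes // ¬ (ℓ : ℕ) ∣ N})
    (fun ℓ => heckeHom N ℓ.1) (fun ℓ => a ℓ.1) ⟨v, hv0, fun ℓ => hv ℓ.1 ℓ.2⟩ φ
  have hX : ∀ x : Jtors N p, p • x = 0 := by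
    intro x
    have h := x.2
    rw [Submodule.mem_torsionBy_iff] at h
    apply Subtype.ext
    rw [Submodule.coe_smul_of_tower, Submodule.coe_zero, ← h, natCast_zsmul]
  have hinj := Fermat.Agent.F3Glue.baseChange_injective_of_ker (p := p) K κ hX hker
  refine ⟨κ.baseChange K y, fun h0 => hy0 (hinj (h0.trans (map_zero _).symm)), fun ℓ hℓ => ?_⟩
  have hℓN : ¬ (ℓ : ℕ) ∣ N := fun h => hℓ (Dvd.dvd.mul_right h p)
  refine ⟨a ℓ, ha ℓ hℓN, ?_⟩
  have hcomm : (heckeTors N p ℓ).baseChange K ∘ₗ κ.baseChange K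
      = κ.baseChange K ∘ₗ (heckeHom N ℓ).baseChange K := by
    rw [← LinearMap.baseChange_comp, ← LinearMap.baseChange_comp]
    congr 1
    ext c
    exact congrArg Subtype.val (hκT ℓ hℓ c).symm
  have h1 := congrArg (fun f => f y) hcomm
  simp only [LinearMap.comp_apply] at h1
  rw [h1, hy ⟨ℓ, hℓN⟩, map_smul]

end Fermat.Agent.F3
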